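import Fermat.Agent.H13.Cft.WaistV4
import Fermat.Agent.H79.Cft.Efface

/-!
# P-CFT row 943 [SD-EFFCOF] (helper48): effacement with the level in a cofinal family

`Fermat.Agent.H48.EffCof.effaceCof : Fermat.Agent.H13.Cft.EffaceCofStatement` (unconditional):
helper79's construction of the effacing pair (`Fermat.Agent.H79.Cft.effGood_finset`) works at
every level `N` which is small enough; classes represented at a level are represented at every
smaller level.
-/

set_option autoImplicit false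

universe u

open CategoryTheory CategoryTheory.Limits groupCohomology

namespace Fermat.Agent.H48.EffCof

open Fermat.Agent.H13.Cft Fermat.Agent.H53 Fermat.Agent.H79.Cft

/-- **[EFF-COF]** Effacement with the level in a cofinal family (unconditional). -/
theorem effaceCof : EffaceCofStatement.{u} := by
  intro k G _ _ 𝒰 χ hχ 𝒩 hcof M hMfin hMtriv n hn hfin
  obtain ⟨N₀, hN₀, hχ₀⟩ := hχ
  obtain ⟨N₁, hN₁, hM₁⟩ := hMtriv
  obtain ⟨N₂, hN₂, hle₂⟩ := 𝒰.directed N₀ hN₀ N₁ hN₁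
  obtain ⟨N₃, hN₃, hle₃, hall₃⟩ := effClassAt_of_finite (𝒰 := 𝒰) hfin N₂ hN₂
  obtain ⟨N, hN, hle, h𝒩⟩ := hcof N₃ hN₃
  have hall : ∀ c : lvlH 𝒰 (M.dualTwist χ) n, EffClassAt 𝒰 (M.dualTwist χ) n N c :=
    fun c => (hall₃ c).mono hle
  have hχN : ∀ s ∈ N, χ s = 1 :=
    fun s hs => hχ₀ s (((hle.trans hle₃).trans hle₂).trans inf_le_left hs)
  have hMN : ∀ s ∈ N, M.ρ s = 1 :=
    fun s hs => hM₁ s (((hle.trans hle₃).trans hle₂).trans inf_le_right hs)
  have hNfi : N.FiniteIndex := 𝒰.finiteIndex N hN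
  have hfinite : Finite (G ⧸ N) := Subgroup.finite_quotient_of_finiteIndex
  obtain ⟨n, rfl⟩ : ∃ n' : ℕ, n = n' + 1 := ⟨n - 1, by omega⟩
  obtain ⟨S, hS⟩ := hMfin.fg_top
  obtain ⟨I, π, ⟨hI1, hI2, hI3, hI4⟩, hrange⟩ := effGood_finset (𝒰 := 𝒰) hN hχN hMN n S
  refine ⟨N, hN, h𝒩, hχN, I, π, ?_, hI1, ⟨N, hN, hI2⟩, hI3, ?_⟩
  · rw [Rep.epi_iff_surjective]
    intro m
    have hm : m ∈ Submodule.span k (S : Set M) := by rw [hS]; exact Submodule.mem_top
    have hle' : Submodule.span k (S : Set M) ≤ LinearMap.range π.hom.toLinearMap := by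
      rw [Submodule.span_le]
      intro m' hm'
      obtain ⟨a, ha⟩ := hrange m' hm'
      exact ⟨a, ha⟩
    obtain ⟨a, ha⟩ := hle' hm
    exact ⟨a, ha⟩
  · refine ModuleCat.hom_ext (LinearMap.ext fun c => ?_)
    exact hI4 c (hall c)

/-- The form requested by row 943. -/
theorem effaceCof_of_efface (_h : EffaceStatement.{u}) : EffaceCofStatement.{u} := effaceCof

end Fermat.Agent.H48.EffCof
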