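import Fermat.Agent.H54.Cft.N6Interfaces
import Fermat.Agent.H96.Cft.KummerDivisible

/-!
# P-CFT row 826 [N6-K] (helper48): the Kummer step

`Fermat.Agent.H48.N6K.kummerStep : Fermat.Agent.H54.Cft.KummerStepStatement`.

Representatives `R` of `H¹(G_S(L), E_S) / p` give representatives of the kernel of
`H²(G_S(L), μ_p) → H²(G_S(L), E_S)`: choose a `p`-th root function `root p` on `ℚ̄ˣ`; for a
cocycle `r` the coboundary `d1 (root p ∘ r)` has values in `μ_p`, i.e. is `ζ ^ x_r`; the set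
`R'` is the image of `r ↦ x_r`.
-/

set_option autoImplicit false
set_option maxSynthPendingDepth 3
set_option linter.style.haveILetI false
set_option linter.unusedSectionVars false

noncomputable section

namespace Fermat.Agent.H48.N6K

open Fermat.Agent.H54.Cft
open Fermat.Agent.H76.Cft (ES QS)

/-! ### `p`-th roots in `ℚ̄ˣ` -/

theorem exists_root (p : ℕ) (hp : 0 < p) (y : Qbarˣ) : ∃ z : Qbarˣ, z ^ p = y := by
  obtain ⟨z, hz⟩ := IsAlgClosed.exists_pow_nat_eq (y : Qbar) hp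
  have hz0 : z ≠ 0 := by
    rintro rfl
    rw [zero_pow hp.ne'] at hz
    exact y.ne_zero hz.symm
  refine ⟨Units.mk0 z hz0, Units.ext ?_⟩
  rw [Units.val_pow_eq_pow_val, Units.val_mk0]
  exact hz

/-- A `p`-th root function on `ℚ̄ˣ`. -/
def root (p : ℕ) (y : Qbarˣ) : Qbarˣ :=
  if hp : 0 < p then (exists_root p hp y).choose else 1

theorem root_pow (p : ℕ) (hp : 0 < p) (y : Qbarˣ) : root p y ^ p = y := by
  unfold root
  rw [dif_pos hp]
  exact (exists_root p hp y).choose_spec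

/-! ### Powers of `ζ` indexed by `ℤ/p` -/

/-- `ζ ^ k` for `k : ℤ/p`. -/
def zp {p : ℕ} (ζ : Qbarˣ) (k : ZMod p) : Qbarˣ := ζ ^ k.val

theorem zp_zero {p : ℕ} [NeZero p] (ζ : Qbarˣ) : zp ζ (0 : ZMod p) = 1 := by
  unfold zp
  rw [ZMod.val_zero, pow_zero]

theorem zp_add {p : ℕ} [NeZero p] {ζ : Qbarˣ} (hζ : ζ ^ p = 1) (a b : ZMod p) :
    zp ζ (a + b) = zp ζ a * zp ζ b := by
  unfold zp
  rw [ZMod.val_add, ← pow_add, ← pow_eq_pow_mod _ hζ]

theorem zp_neg {p : ℕ} [NeZero p] {ζ : Qbarˣ} (hζ : ζ ^ p = 1) (a : ZMod p) :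
    zp ζ (-a) = (zp ζ a)⁻¹ := by
  rw [eq_inv_iff_mul_eq_one, ← zp_add hζ, neg_add_cancel, zp_zero]

theorem zp_sub {p : ℕ} [NeZero p] {ζ : Qbarˣ} (hζ : ζ ^ p = 1) (a b : ZMod p) :
    zp ζ (a - b) = zp ζ a / zp ζ b := by
  rw [sub_eq_add_neg, zp_add hζ, zp_neg hζ, div_eq_mul_inv]

theorem pow_eq_one_of_primitive {p : ℕ} {ζ : Qbarˣ} (hζ : IsPrimitiveRoot (ζ : Qbar) p) :
    ζ ^ p = 1 := by
  apply Units.ext
  rw [Units.val_pow_eq_pow_val, Units.val_one]
  exact hζ.pow_eq_one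

theorem zp_injective {p : ℕ} [NeZero p] {ζ : Qbarˣ} (hζ : IsPrimitiveRoot (ζ : Qbar) p) :
    Function.Injective (zp (p := p) ζ) := by
  intro a b hab
  unfold zp at hab
  have h := congrArg (fun u : Qbarˣ => (u : Qbar)) hab
  simp only [Units.val_pow_eq_pow_val] at h
  exact ZMod.val_injective p (hζ.pow_inj (ZMod.val_lt a) (ZMod.val_lt b) h)

theorem exists_zp {p : ℕ} [NeZero p] {ζ : Qbarˣ} (hζ : IsPrimitiveRoot (ζ : Qbar) p)
    (ξ : Qbarˣ) (hξ : ξ ^ p = 1) : ∃ k : ZMod p, zp ζ k = ξ := by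
  have hξ' : (ξ : Qbar) ^ p = 1 := by
    rw [← Units.val_pow_eq_pow_val, hξ, Units.val_one]
  obtain ⟨i, hi, hi'⟩ := hζ.eq_pow_of_pow_eq_one hξ'
  refine ⟨(i : ZMod p), Units.ext ?_⟩
  unfold zp
  rw [Units.val_pow_eq_pow_val, ZMod.val_natCast, Nat.mod_eq_of_lt hi]
  exact hi'

/-- A discrete logarithm with respect to `ζ`. -/
def dlog {p : ℕ} (ζ : Qbarˣ) (ξ : Qbarˣ) : ZMod p :=
  open Classical in if h : ∃ k : ZMod p, zp ζ k = ξ then h.choose else 0

theorem zp_dlog {p : ℕ} [NeZero p] {ζ : Qbarˣ} (hζ : IsPrimitiveRoot (ζ : Qbar) p)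
    (ξ : Qbarˣ) (hξ : ξ ^ p = 1) : zp ζ (dlog (p := p) ζ ξ) = ξ := by
  unfold dlog
  rw [dif_pos (exists_zp hζ ξ hξ)]
  exact (exists_zp hζ ξ hξ).choose_spec

/-! ### The coboundary operator on `1`-cochains -/

variable {L : IntermediateField ℚ Qbar}

theorem galU_mul (σ τ : GQ) (u : Qbarˣ) : galU (σ * τ) u = galU σ (galU τ u) :=
  Units.ext rfl

/-- The coboundary of a `1`-cochain with values in `ℚ̄ˣ`. -/
def d1 (e : GalL L → Qbarˣ) (g h : GalL L) : Qbarˣ :=
  galU (g : GQ) (e h) * e g / e (g * h)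

theorem d1_mul (e e' : GalL L → Qbarˣ) (g h : GalL L) :
    d1 (e * e') g h = d1 e g h * d1 e' g h := by
  simp only [d1, Pi.mul_apply, map_mul]
  rw [div_mul_div_comm, mul_mul_mul_comm]

theorem d1_pow (e : GalL L → Qbarˣ) (n : ℕ) (g h : GalL L) :
    d1 (e ^ n) g h = d1 e g h ^ n := by
  simp only [d1, Pi.pow_apply, map_pow, div_pow, mul_pow]

theorem d1_eq_one_of_cocycle {c : GalL L → Qbarˣ}
    (hc : ∀ g h : GalL L, c (g * h) = galU (g : GQ) (c h) * c g) (g h : GalL L) :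
    d1 c g h = 1 := by
  unfold d1
  rw [hc, div_self']

theorem d1_cob (u : Qbarˣ) (g h : GalL L) :
    d1 (fun g : GalL L => galU (g : GQ) u / u) g h = 1 := by
  unfold d1
  beta_reduce
  rw [Subgroup.coe_mul, galU_mul, map_div, div_mul_div_cancel, div_self']

theorem galU_zp {p : ℕ} {ζ : Qbarˣ} (hζL : (ζ : Qbar) ∈ L) (g : GalL L) (k : ZMod p) :
    galU (g : GQ) (zp ζ k) = zp ζ k := by
  unfold zp
  rw [map_pow]
  congr 1
  apply Units.ext
  rw [coe_galU]
  exact (IntermediateField.mem_fixingSubgroup_iff L (g : GQ)).mp g.2 _ hζL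

theorem d1_zp {p : ℕ} [NeZero p] {ζ : Qbarˣ} (hζ : ζ ^ p = 1) (hζL : (ζ : Qbar) ∈ L)
    (y : GalL L → ZMod p) (g h : GalL L) :
    d1 (fun g : GalL L => zp ζ (y g)) g h = zp ζ (y h - y (g * h) + y g) := by
  unfold d1
  beta_reduce
  rw [galU_zp hζL, zp_add hζ, zp_sub hζ, div_mul_eq_mul_div]

/-! ### `S`-level functions -/

variable {S : Finset Nat.Primes}

theorem isSLvl₁_comp {X Y : Type} {f : GalL L → X} (hf : IsSLvl₁ S L f) (φ : X → Y) :
    IsSLvl₁ S L (fun g => φ (f g)) := by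
  obtain ⟨F, hF, h⟩ := hf
  exact ⟨F, hF, fun g n hn => by beta_reduce; rw [h g n hn]⟩

theorem isSLvl₁_pair {X Y : Type} {f : GalL L → X} {f' : GalL L → Y} (hf : IsSLvl₁ S L f)
    (hf' : IsSLvl₁ S L f') : IsSLvl₁ S L (fun g => (f g, f' g)) := by
  obtain ⟨F, hF, h⟩ := hf
  obtain ⟨F', hF', h'⟩ := hf'
  refine ⟨F ⊔ F', hF.sup hF', fun g n hn => ?_⟩
  rw [IntermediateField.fixingSubgroup_sup] at hn
  beta_reduce
  rw [h g n hn.1, h' g n hn.2]

theorem isSLvl₁_cob {u : Qbarˣ} (hu : u ∈ ES S) :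
    IsSLvl₁ S L (fun g : GalL L => galU (g : GQ) u / u) := by
  have hF : (IntermediateField.adjoin ℚ {(u : Qbar)}).IsUnramifiedOutside S := by
    refine ⟨IntermediateField.adjoin.finiteDimensional
        ((AlgebraicClosure.isAlgebraic ℚ).isAlgebraic (u : Qbar)).isIntegral,
      fun q hq A hA σ hσ => ?_⟩
    apply Fermat.Agent.H96.Cft.mem_fixingSubgroup_adjoin_simple
    exact Fermat.Agent.H96.Cft.apply_eq_of_mem_QS hq hA hσ hu.1
  refine ⟨_, hF, fun g n hn => ?_⟩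
  have hnu : galU (n : GQ) u = u := by
    apply Units.ext
    rw [coe_galU]
    exact (IntermediateField.mem_fixingSubgroup_iff _ (n : GQ)).mp hn _
      (IntermediateField.mem_adjoin_simple_self ℚ _)
  show galU ((g * n : GalL L) : GQ) u / u = galU (g : GQ) u / u
  rw [Subgroup.coe_mul, galU_mul, hnu]

/-! ### The Kummer step -/

/-- **[N6-K]** The Kummer step. -/
theorem kummerStep : KummerStepStatement := by
  intro p _ S hpS L ζ hζ hζL R hR hrep
  classical
  have hp : p.Prime := Fact.out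
  have hp0 : 0 < p := hp.pos
  haveI : NeZero p := ⟨hp.ne_zero⟩
  have hζp : ζ ^ p = 1 := pow_eq_one_of_primitive hζ
  let X : (GalL L → Qbarˣ) → (GalL L × GalL L → ZMod p) :=
    fun r gh => dlog ζ (d1 (fun g => root p (r g)) gh.1 gh.2)
  refine ⟨R.image X, Finset.card_image_le, ?_⟩
  rintro x ⟨e, ⟨heL, heE⟩, hex⟩
  have hex' : ∀ g h : GalL L, d1 e g h = zp ζ (x (g, h)) := hex
  -- `c := e ^ p` is a cocycle
  have hc : IsESCocycle S L (e ^ p) := by
    refine ⟨fun g h => ?_, isSLvl₁_comp heL (· ^ p), fun g => (ES S).pow_mem (heE g) p⟩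
    have h2 : d1 (e ^ p) g h = 1 := by
      rw [d1_pow, hex', zp, ← pow_mul, mul_comm, pow_mul, hζp, one_pow]
    unfold d1 at h2
    rw [div_eq_one] at h2
    exact h2.symm
  obtain ⟨r, hrR, w, hw, u, hu, hcob⟩ := hrep _ hc
  refine ⟨X r, Finset.mem_image_of_mem X hrR, ?_⟩
  have hr := hR r hrR
  -- the roots
  have hut : root p u ∈ ES S :=
    Fermat.Agent.H96.Cft.kummerDivisible p S hpS u (root p u) (root_pow p hp0 u) hu
  set er : GalL L → Qbarˣ := fun g => root p (r g) with her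
  set bt : GalL L → Qbarˣ := fun g => galU (g : GQ) (root p u) / root p u with hbt
  set q : GalL L → Qbarˣ := fun g => e g / (er g * w g * bt g) with hq
  have hqp : ∀ g, q g ^ p = 1 := by
    intro g
    have h1 := hcob g
    simp only [Pi.mul_apply, Pi.pow_apply, Pi.inv_apply] at h1
    have h2 : bt g ^ p = galU (g : GQ) u / u := by
      rw [hbt]
      simp only [div_pow, ← map_pow, root_pow p hp0]
    rw [hq]
    simp only [div_pow, mul_pow]
    rw [h2, ← h1, her]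
    simp only [root_pow p hp0]
    rw [mul_comm (e g ^ p), mul_inv_cancel_left, div_self']
  set y : GalL L → ZMod p := fun g => dlog ζ (q g) with hy
  have hyq : ∀ g, zp ζ (y g) = q g := fun g => zp_dlog hζ _ (hqp g)
  refine ⟨y, ?_, fun g h => ?_⟩
  · -- `y` is `S`-level
    have h1 : IsSLvl₁ S L er := isSLvl₁_comp hr.2.1 (root p)
    have h2 : IsSLvl₁ S L bt := isSLvl₁_cob hut
    have h3 := isSLvl₁_pair (isSLvl₁_pair heL h1) (isSLvl₁_pair hw.2.1 h2)
    exact isSLvl₁_comp h3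
      (fun t : (Qbarˣ × Qbarˣ) × (Qbarˣ × Qbarˣ) => dlog ζ (t.1.1 / (t.1.2 * t.2.1 * t.2.2)))
  · -- the cohomology relation
    apply zp_injective hζ
    have he : e = er * w * bt * (fun g => zp ζ (y g)) := by
      funext g
      simp only [Pi.mul_apply, hyq]
      rw [hq]
      simp only
      rw [mul_div_cancel]
    have h1 : d1 er g h = zp ζ (X r (g, h)) := by
      symm
      apply zp_dlog hζ
      show d1 er g h ^ p = 1
      rw [← d1_pow]
      have : er ^ p = r := by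
        funext g
        simp only [Pi.pow_apply, her, root_pow p hp0]
      rw [this]
      exact d1_eq_one_of_cocycle hr.1 g h
    rw [← hex', zp_add hζp, ← d1_zp hζp hζL, ← h1]
    conv_lhs => rw [he]
    rw [d1_mul, d1_mul, d1_mul, d1_eq_one_of_cocycle hw.1, hbt, d1_cob, mul_one, mul_one]

end Fermat.Agent.H48.N6K
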