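/-
P-CFT / RECIP-Q, row RQ-TAME (helper48), part 1: valuations.

* sums `∑_{i < n} c_i ϖ ^ i` with `c_i ∈ K_ℓ` and `v(ϖ) ^ n = v(ℓ)`: the nonzero terms have
  pairwise distinct valuations, so the valuation of the sum is the maximum;
* the cyclotomic units `1 - ζ ^ u`, `u ∈ (ℤ/ℓ)ˣ`: all of the same valuation, product `ℓ`,
  permuted by the Galois group through the cyclotomic character.
-/
import Fermat.Agent.H25.Recip.Interfaces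

set_option autoImplicit false
set_option linter.unusedSectionVars false
set_option linter.style.haveILetI false
set_option maxHeartbeats 1000000

namespace Fermat.Agent.H48.RQTame

open Fermat.Agent.H81.Local ExtCitation
open scoped NNReal

local notation "Qb" => AlgebraicClosure ℚ

variable (ℓ : ℕ) [Fact ℓ.Prime]

/-! ### Sums with pairwise distinct valuations -/

theorem qVal_unif_bounds {ϖ : Qb} {n : ℕ} (hϖ : qVal ℓ ϖ ^ n = qVal ℓ (ℓ : Qb)) :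
    n ≠ 0 ∧ 0 < qVal ℓ ϖ ∧ qVal ℓ ϖ < 1 := by
  rw [qVal_natCast_self] at hϖ
  have h0 := qInv_pos ℓ
  have h1 := qInv_lt_one ℓ
  have hn : n ≠ 0 := by
    rintro rfl
    rw [pow_zero] at hϖ
    rw [← hϖ] at h1
    exact lt_irrefl _ h1
  refine ⟨hn, ?_, ?_⟩
  · rcases eq_or_ne (qVal ℓ ϖ) 0 with h | h
    · rw [h, zero_pow hn] at hϖ
      rw [← hϖ] at h0
      exact absurd h0 (lt_irrefl _)
    · exact pos_of_ne_zero h
  · by_contra hcon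
    push Not at hcon
    have := one_le_pow₀ (n := n) hcon
    rw [hϖ] at this
    exact absurd h1 (not_lt.mpr this)

theorem qVal_unif_ne_zero {ϖ : Qb} {n : ℕ} (hϖ : qVal ℓ ϖ ^ n = qVal ℓ (ℓ : Qb)) : ϖ ≠ 0 := by
  rintro rfl
  have := (qVal_unif_bounds ℓ hϖ).2.1
  rw [map_zero] at this
  exact lt_irrefl _ this

/-- The value of a nonzero element of `K_ℓ` is a power of `v(ϖ) ^ n`. -/
theorem qVal_local_eq_zpow {ϖ : Qb} {n : ℕ} (hϖ : qVal ℓ ϖ ^ n = qVal ℓ (ℓ : Qb))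
    {c : Qb} (hc : c ∈ localField ℓ) (hc0 : c ≠ 0) :
    ∃ k : ℤ, qVal ℓ c = qVal ℓ ϖ ^ ((n : ℤ) * k) := by
  obtain ⟨k, hk⟩ := qVal_localField ℓ hc hc0
  refine ⟨k, ?_⟩
  rw [hk, ← qVal_natCast_self, ← hϖ, zpow_mul, zpow_natCast]

theorem qVal_term_eq_zpow {ϖ : Qb} {n : ℕ} (hϖ : qVal ℓ ϖ ^ n = qVal ℓ (ℓ : Qb))
    {c : Qb} (hc : c ∈ localField ℓ) (hc0 : c ≠ 0) (i : ℕ) :
    ∃ k : ℤ, qVal ℓ (c * ϖ ^ i) = qVal ℓ ϖ ^ ((n : ℤ) * k + i) := by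
  obtain ⟨k, hk⟩ := qVal_local_eq_zpow ℓ hϖ hc hc0
  refine ⟨k, ?_⟩
  have hne : qVal ℓ ϖ ≠ 0 := (qVal_unif_bounds ℓ hϖ).2.1.ne'
  rw [map_mul, map_pow, hk, zpow_add₀ hne, zpow_natCast]

theorem zpow_unif_injective {ϖ : Qb} {n : ℕ} (hϖ : qVal ℓ ϖ ^ n = qVal ℓ (ℓ : Qb))
    {a b : ℤ} (h : qVal ℓ ϖ ^ a = qVal ℓ ϖ ^ b) : a = b := by
  obtain ⟨-, h0, h1⟩ := qVal_unif_bounds ℓ hϖ
  exact zpow_right_injective₀ h0 h1.ne h

/-- Nonzero terms `c ϖ ^ i`, `i < n`, have pairwise distinct valuations. -/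
theorem term_index_unique {ϖ : Qb} {n : ℕ} (hϖ : qVal ℓ ϖ ^ n = qVal ℓ (ℓ : Qb))
    {c d : Qb} (hc : c ∈ localField ℓ) (hc0 : c ≠ 0) (hd : d ∈ localField ℓ) (hd0 : d ≠ 0)
    {i j : ℕ} (hi : i < n) (hj : j < n)
    (h : qVal ℓ (c * ϖ ^ i) = qVal ℓ (d * ϖ ^ j)) : i = j := by
  obtain ⟨k, hk⟩ := qVal_term_eq_zpow ℓ hϖ hc hc0 i
  obtain ⟨m, hm⟩ := qVal_term_eq_zpow ℓ hϖ hd hd0 j
  rw [hk, hm] at h
  have h2 := zpow_unif_injective ℓ hϖ h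
  have h3 : ((n : ℤ) * k + i) % n = ((n : ℤ) * m + j) % n := by rw [h2]
  rw [Int.add_comm, Int.add_mul_emod_self_left, Int.add_comm ((n : ℤ) * m),
    Int.add_mul_emod_self_left, Int.emod_eq_of_lt (by omega) (by omega),
    Int.emod_eq_of_lt (by omega) (by omega)] at h3
  exact_mod_cast h3

/-- A term of positive index `< n` never has valuation `1`. -/
theorem term_qVal_ne_one {ϖ : Qb} {n : ℕ} (hϖ : qVal ℓ ϖ ^ n = qVal ℓ (ℓ : Qb))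
    {c : Qb} (hc : c ∈ localField ℓ) (hc0 : c ≠ 0) {i : ℕ} (hi : i < n) (hi0 : i ≠ 0) :
    qVal ℓ (c * ϖ ^ i) ≠ 1 := by
  intro h
  have h1 : qVal ℓ (c * ϖ ^ i) = qVal ℓ ((1 : Qb) * ϖ ^ 0) := by
    rw [h, pow_zero, mul_one, map_one]
  have := term_index_unique ℓ hϖ hc hc0 (one_mem _) one_ne_zero hi (by omega) h1
  exact hi0 this

/-- The valuation of `∑_{i < n} c_i ϖ ^ i` is the maximum of the valuations of the terms. -/
theorem qVal_sum_eq_max {ϖ : Qb} {n : ℕ} (hϖ : qVal ℓ ϖ ^ n = qVal ℓ (ℓ : Qb))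
    (c : Fin n → Qb) (hc : ∀ i, c i ∈ localField ℓ) (hne : ∃ i, c i ≠ 0) :
    ∃ j, c j ≠ 0 ∧ qVal ℓ (∑ i, c i * ϖ ^ (i : ℕ)) = qVal ℓ (c j * ϖ ^ (j : ℕ)) ∧
      ∀ i, qVal ℓ (c i * ϖ ^ (i : ℕ)) ≤ qVal ℓ (c j * ϖ ^ (j : ℕ)) := by
  classical
  obtain ⟨i₀, hi₀⟩ := hne
  have hϖ0 := qVal_unif_ne_zero ℓ hϖ
  obtain ⟨j, -, hj⟩ := Finset.exists_max_image (Finset.univ : Finset (Fin n))
    (fun i => qVal ℓ (c i * ϖ ^ (i : ℕ))) ⟨i₀, Finset.mem_univ _⟩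
  have hcj : c j ≠ 0 := by
    intro h0
    have h1 := hj i₀ (Finset.mem_univ _)
    simp only [h0, zero_mul, map_zero, nonpos_iff_eq_zero, map_eq_zero, mul_eq_zero,
      pow_eq_zero_iff', ne_eq] at h1
    rcases h1 with h1 | h1
    · exact hi₀ h1
    · exact hϖ0 h1.1
  have htj : qVal ℓ (c j * ϖ ^ (j : ℕ)) ≠ 0 :=
    (Valuation.ne_zero_iff _).mpr (mul_ne_zero hcj (pow_ne_zero _ hϖ0))
  refine ⟨j, hcj, ?_, fun i => hj i (Finset.mem_univ _)⟩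
  apply Valuation.map_sum_eq_of_lt (qVal ℓ) (Finset.mem_univ j)
  intro i hi
  have hij : i ≠ j := by
    simpa using hi
  refine lt_of_le_of_ne (hj i (Finset.mem_univ _)) ?_
  intro heq
  have hci : c i ≠ 0 := by
    intro h0
    rw [h0, zero_mul, map_zero] at heq
    exact htj heq.symm
  exact hij (Fin.ext (term_index_unique ℓ hϖ (hc i) hci (hc j) hcj i.2 j.2 heq))

/-- `1, ϖ, …, ϖ ^ (n - 1)` are linearly independent over `K_ℓ`. -/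
theorem coeff_eq_zero_of_sum_eq_zero {ϖ : Qb} {n : ℕ} (hϖ : qVal ℓ ϖ ^ n = qVal ℓ (ℓ : Qb))
    (c : Fin n → Qb) (hc : ∀ i, c i ∈ localField ℓ) (h : ∑ i, c i * ϖ ^ (i : ℕ) = 0) (i : Fin n) :
    c i = 0 := by
  by_contra hi
  obtain ⟨j, hj, hsum, -⟩ := qVal_sum_eq_max ℓ hϖ c hc ⟨i, hi⟩
  rw [h, map_zero] at hsum
  exact (Valuation.ne_zero_iff _).mpr (mul_ne_zero hj (pow_ne_zero _ (qVal_unif_ne_zero ℓ hϖ)))
    hsum.symm

/-- Residue degree one: an integral `∑_{i < n} c_i ϖ ^ i` is congruent to `c_0`, which is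
integral. -/
theorem qVal_sum_sub_lt_one {ϖ : Qb} {n : ℕ} (hϖ : qVal ℓ ϖ ^ n = qVal ℓ (ℓ : Qb))
    (c : Fin n → Qb) (hc : ∀ i, c i ∈ localField ℓ) (h : qVal ℓ (∑ i, c i * ϖ ^ (i : ℕ)) ≤ 1)
    (i₀ : Fin n) (hi₀ : (i₀ : ℕ) = 0) :
    qVal ℓ (c i₀) ≤ 1 ∧ qVal ℓ (∑ i, c i * ϖ ^ (i : ℕ) - c i₀) < 1 := by
  classical
  have hterm : ∀ i, qVal ℓ (c i * ϖ ^ (i : ℕ)) ≤ 1 := by
    intro i
    by_cases hne : ∃ i, c i ≠ 0
    · obtain ⟨j, -, hsum, hmax⟩ := qVal_sum_eq_max ℓ hϖ c hc hne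
      exact (hmax i).trans (hsum ▸ h)
    · push Not at hne
      rw [hne i, zero_mul, map_zero]
      exact zero_le_one
  constructor
  · have := hterm i₀
    rwa [hi₀, pow_zero, mul_one] at this
  · have hsplit : ∑ i, c i * ϖ ^ (i : ℕ) - c i₀ =
        ∑ i ∈ Finset.univ.erase i₀, c i * ϖ ^ (i : ℕ) := by
      rw [← Finset.add_sum_erase _ _ (Finset.mem_univ i₀), hi₀, pow_zero, mul_one]
      ring
    rw [hsplit]
    apply Valuation.map_sum_lt (qVal ℓ) one_ne_zero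
    intro i hi
    have hii : i ≠ i₀ := Finset.ne_of_mem_erase hi
    have hi0 : (i : ℕ) ≠ 0 := by
      intro h0
      exact hii (Fin.ext (h0.trans hi₀.symm))
    rcases eq_or_ne (c i) 0 with h0 | h0
    · rw [h0, zero_mul, map_zero]
      exact zero_lt_one
    · exact lt_of_le_of_ne (hterm i) (term_qVal_ne_one ℓ hϖ (hc i) h0 i.2 hi0)

end Fermat.Agent.H48.RQTame
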