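/-
P-CFT / RECIP-Q, row RQ-TAME (helper48), part 2: the cyclotomic units `1 - ζ ^ u`,
`u ∈ (ℤ/ℓ)ˣ`: all of the same valuation, of product `ℓ`, permuted by the Galois group
through the cyclotomic character.
-/
import Fermat.Agent.H48.Cft.TameVal

set_option autoImplicit false
set_option linter.unusedSectionVars false
set_option linter.style.haveILetI false
set_option maxHeartbeats 1000000

namespace Fermat.Agent.H48.RQTame

open Fermat.Agent.H81.Local ExtCitation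
open scoped NNReal

local notation "Qb" => AlgebraicClosure ℚ

variable (ℓ : ℕ) [Fact ℓ.Prime]

/-- The cyclotomic unit `1 - ζ ^ u`. -/
noncomputable def cycUnit (ζ : Qb) (u : (ZMod ℓ)ˣ) : Qb := 1 - ζ ^ (u : ZMod ℓ).val

/-- The product of the cyclotomic units over a finite set of classes. -/
noncomputable def cycProd (ζ : Qb) (s : Finset (ZMod ℓ)ˣ) : Qb := ∏ u ∈ s, cycUnit ℓ ζ u

variable {ℓ}

theorem pow_val_mul {ζ : Qb} (hζ : ζ ^ ℓ = 1) (a b : ZMod ℓ) :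
    ζ ^ (a * b).val = (ζ ^ a.val) ^ b.val := by
  rw [ZMod.val_mul, ← pow_eq_pow_mod _ hζ, pow_mul]

theorem exists_primitiveRoot_Qb : ∃ ζ : Qb, IsPrimitiveRoot ζ ℓ := by
  have hℓ : ℓ.Prime := Fact.out
  haveI : NeZero (ℓ : Qb) := ⟨by exact_mod_cast hℓ.ne_zero⟩
  exact HasEnoughRootsOfUnity.exists_primitiveRoot Qb ℓ

/-- The Galois action on `μ_ℓ` through the cyclotomic character. -/
theorem sigma_root {t : Qb} (ht : t ^ ℓ = 1) (σ : Qb ≃ₐ[ℚ] Qb) :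
    σ t = t ^ ((cycloChar ℓ σ : (ZMod ℓ)ˣ) : ZMod ℓ).val := by
  have hℓ : ℓ.Prime := Fact.out
  haveI : NeZero ℓ := ⟨hℓ.ne_zero⟩
  have hu : IsUnit t := IsUnit.of_pow_eq_one ht hℓ.ne_zero
  have hmem : hu.unit ∈ rootsOfUnity ℓ Qb := by
    rw [mem_rootsOfUnity]
    apply Units.ext
    rw [Units.val_pow_eq_pow_val, IsUnit.unit_spec, ht, Units.val_one]
  have h := modularCyclotomicCharacter.spec Qb (card_rootsOfUnity_eq_self ℓ)
    (σ : Qb ≃+* Qb) hmem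
  rw [IsUnit.unit_spec] at h
  exact h

/-- An automorphism fixing a primitive `ℓ`-th root of unity has trivial cyclotomic character. -/
theorem cycloChar_eq_one_of_fix {ζ : Qb} (hζ : IsPrimitiveRoot ζ ℓ) {σ : Qb ≃ₐ[ℚ] Qb}
    (h : σ ζ = ζ) : cycloChar ℓ σ = 1 := by
  have hℓ : ℓ.Prime := Fact.out
  haveI : NeZero ℓ := ⟨hℓ.ne_zero⟩
  haveI : Fact (1 < ℓ) := ⟨hℓ.one_lt⟩
  have key := modularCyclotomicCharacter.unique Qb (card_rootsOfUnity_eq_self ℓ)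
    (σ : Qb ≃+* Qb) (c := 1) ?_
  · apply Units.ext
    rw [Units.val_one]
    exact key.symm
  · intro t ht
    rw [ZMod.val_one, pow_one]
    have ht' : (t : Qb) ^ ℓ = 1 := by
      rw [mem_rootsOfUnity] at ht
      rw [← Units.val_pow_eq_pow_val, ht, Units.val_one]
    obtain ⟨i, -, hi⟩ := hζ.eq_pow_of_pow_eq_one ht'
    change σ (t : Qb) = t
    rw [← hi, map_pow, h]

theorem sigma_cycUnit {ζ : Qb} (hζ : ζ ^ ℓ = 1) (σ : Qb ≃ₐ[ℚ] Qb) (u : (ZMod ℓ)ˣ) :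
    σ (cycUnit ℓ ζ u) = cycUnit ℓ ζ (cycloChar ℓ σ * u) := by
  unfold cycUnit
  rw [map_sub, map_one, map_pow, sigma_root hζ σ, Units.val_mul, pow_val_mul hζ]

theorem sigma_cycProd {ζ : Qb} (hζ : ζ ^ ℓ = 1) (σ : Qb ≃ₐ[ℚ] Qb) (s : Finset (ZMod ℓ)ˣ) :
    σ (cycProd ℓ ζ s) = ∏ u ∈ s, cycUnit ℓ ζ (cycloChar ℓ σ * u) := by
  unfold cycProd
  rw [map_prod]
  exact Finset.prod_congr rfl fun u _ => sigma_cycUnit hζ σ u

/-- A set of classes stable under multiplication by `χ(σ)` has a `σ`-invariant product. -/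
theorem sigma_cycProd_eq {ζ : Qb} (hζ : ζ ^ ℓ = 1) (σ : Qb ≃ₐ[ℚ] Qb) (s : Finset (ZMod ℓ)ˣ)
    (hs : ∀ u, u ∈ s ↔ cycloChar ℓ σ * u ∈ s) : σ (cycProd ℓ ζ s) = cycProd ℓ ζ s := by
  rw [sigma_cycProd hζ]
  unfold cycProd
  exact Finset.prod_equiv (Equiv.mulLeft (cycloChar ℓ σ)) hs (fun u _ => rfl)

variable (ℓ)

theorem qVal_root_le_one {ζ : Qb} (hζ : ζ ^ ℓ = 1) : qVal ℓ ζ ≤ 1 := by
  have hℓ : ℓ.Prime := Fact.out
  by_contra hcon
  push Not at hcon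
  have h1 := one_lt_pow₀ hcon hℓ.ne_zero
  rw [← map_pow, hζ, map_one] at h1
  exact lt_irrefl _ h1

theorem qVal_one_sub_pow_le {x : Qb} (hx : qVal ℓ x ≤ 1) (k : ℕ) :
    qVal ℓ (1 - x ^ k) ≤ qVal ℓ (1 - x) := by
  rw [← mul_neg_geom_sum x k, map_mul]
  have h1 : qVal ℓ (∑ i ∈ Finset.range k, x ^ i) ≤ 1 := by
    apply Valuation.map_sum_le
    intro i _
    rw [map_pow]
    exact pow_le_one₀ zero_le hx
  calc qVal ℓ (1 - x) * qVal ℓ (∑ i ∈ Finset.range k, x ^ i)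
      ≤ qVal ℓ (1 - x) * 1 := by gcongr
    _ = qVal ℓ (1 - x) := mul_one _

/-- All the cyclotomic units have the same valuation. -/
theorem qVal_cycUnit {ζ : Qb} (hζ : ζ ^ ℓ = 1) (u : (ZMod ℓ)ˣ) :
    qVal ℓ (cycUnit ℓ ζ u) = qVal ℓ (1 - ζ) := by
  have hℓ : ℓ.Prime := Fact.out
  haveI : Fact (1 < ℓ) := ⟨hℓ.one_lt⟩
  apply le_antisymm
  · exact qVal_one_sub_pow_le ℓ (qVal_root_le_one ℓ hζ) _
  · have h1 : ζ = (ζ ^ (u : ZMod ℓ).val) ^ ((u⁻¹ : (ZMod ℓ)ˣ) : ZMod ℓ).val := by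
      rw [← pow_val_mul hζ, ← Units.val_mul, mul_inv_cancel, Units.val_one, ZMod.val_one,
        pow_one]
    have h2 : qVal ℓ (ζ ^ (u : ZMod ℓ).val) ≤ 1 := by
      rw [map_pow]
      exact pow_le_one₀ zero_le (qVal_root_le_one ℓ hζ)
    have h3 := qVal_one_sub_pow_le ℓ h2 ((u⁻¹ : (ZMod ℓ)ˣ) : ZMod ℓ).val
    rw [← h1] at h3
    exact h3

theorem qVal_cycProd {ζ : Qb} (hζ : ζ ^ ℓ = 1) (s : Finset (ZMod ℓ)ˣ) :
    qVal ℓ (cycProd ℓ ζ s) = qVal ℓ (1 - ζ) ^ s.card := by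
  unfold cycProd
  rw [map_prod, Finset.prod_congr rfl fun u _ => qVal_cycUnit ℓ hζ u, Finset.prod_const]

theorem val_unit_pos (u : (ZMod ℓ)ˣ) : 0 < (u : ZMod ℓ).val := by
  rcases Nat.eq_zero_or_pos (u : ZMod ℓ).val with h | h
  · exact absurd ((ZMod.val_eq_zero _).mp h) u.ne_zero
  · exact h

/-- The product of all the cyclotomic units is `ℓ`. -/
theorem prod_cycUnit {ζ : Qb} (hζ : IsPrimitiveRoot ζ ℓ) :
    cycProd ℓ ζ Finset.univ = (ℓ : Qb) := by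
  classical
  have hℓ : ℓ.Prime := Fact.out
  haveI : NeZero ℓ := ⟨hℓ.ne_zero⟩
  have hℓ1 : ℓ - 1 + 1 = ℓ := Nat.sub_add_cancel hℓ.one_le
  have hζ' : IsPrimitiveRoot ζ (ℓ - 1 + 1) := by rw [hℓ1]; exact hζ
  have key := hζ'.prod_one_sub_pow_eq_order
  have hcast : ((ℓ - 1 : ℕ) : Qb) + 1 = (ℓ : Qb) := by
    have : (((ℓ - 1 + 1 : ℕ)) : Qb) = (ℓ : Qb) := by rw [hℓ1]
    rw [← this]
    push_cast
    rfl
  rw [hcast] at key
  rw [← key]
  set i : (ZMod ℓ)ˣ → ℕ := fun u => (u : ZMod ℓ).val - 1 with hi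
  have hinj : Function.Injective i := by
    intro u w huw
    have hu := val_unit_pos ℓ u
    have hw := val_unit_pos ℓ w
    have h1 : (u : ZMod ℓ).val = (w : ZMod ℓ).val := by
      simp only [hi] at huw
      omega
    exact Units.ext (ZMod.val_injective ℓ h1)
  have himg : Finset.image i Finset.univ = Finset.range (ℓ - 1) := by
    apply Finset.eq_of_subset_of_card_le
    · intro k hk
      obtain ⟨u, -, rfl⟩ := Finset.mem_image.mp hk
      rw [Finset.mem_range]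
      have h1 := ZMod.val_lt (u : ZMod ℓ)
      have h2 := val_unit_pos ℓ u
      simp only [hi]
      omega
    · rw [Finset.card_image_of_injective _ hinj, Finset.card_range, Finset.card_univ,
        ZMod.card_units]
  rw [← himg, Finset.prod_image hinj.injOn]
  unfold cycProd cycUnit
  refine Finset.prod_congr rfl fun u _ => ?_
  have h2 := val_unit_pos ℓ u
  simp only [hi]
  rw [Nat.sub_add_cancel h2]

/-- `v(1 - ζ) ^ (ℓ - 1) = v(ℓ)`. -/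
theorem qVal_one_sub_root_pow {ζ : Qb} (hζ : IsPrimitiveRoot ζ ℓ) :
    qVal ℓ (1 - ζ) ^ (ℓ - 1) = qVal ℓ (ℓ : Qb) := by
  rw [← prod_cycUnit ℓ hζ, qVal_cycProd ℓ hζ.pow_eq_one, Finset.card_univ, ZMod.card_units]

/-- The product of the cyclotomic units over `s` is a root of `v(ℓ)` of order `n` as soon as
`n * #s = ℓ - 1`. -/
theorem qVal_cycProd_pow {ζ : Qb} (hζ : IsPrimitiveRoot ζ ℓ) (s : Finset (ZMod ℓ)ˣ) (n : ℕ)
    (hn : s.card * n = ℓ - 1) : qVal ℓ (cycProd ℓ ζ s) ^ n = qVal ℓ (ℓ : Qb) := by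
  rw [qVal_cycProd ℓ hζ.pow_eq_one, ← pow_mul, hn, qVal_one_sub_root_pow ℓ hζ]

/-- The finite set of the elements of a subgroup of `(ℤ/ℓ)ˣ`. -/
noncomputable def subFin (H : Subgroup (ZMod ℓ)ˣ) : Finset (ZMod ℓ)ˣ :=
  open Classical in Finset.univ.filter (· ∈ H)

theorem mem_subFin {H : Subgroup (ZMod ℓ)ˣ} {u : (ZMod ℓ)ˣ} : u ∈ subFin ℓ H ↔ u ∈ H := by
  unfold subFin
  simp

theorem card_subFin (H : Subgroup (ZMod ℓ)ˣ) : (subFin ℓ H).card = Nat.card H := by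
  classical
  unfold subFin
  rw [Nat.card_eq_fintype_card, Fintype.card_subtype]

/-- The product over a subgroup is fixed by the automorphisms whose character lies in it. -/
theorem sigma_cycProd_subFin {ζ : Qb} (hζ : ζ ^ ℓ = 1) (H : Subgroup (ZMod ℓ)ˣ)
    {σ : Qb ≃ₐ[ℚ] Qb} (hσ : cycloChar ℓ σ ∈ H) :
    σ (cycProd ℓ ζ (subFin ℓ H)) = cycProd ℓ ζ (subFin ℓ H) := by
  apply sigma_cycProd_eq hζ
  intro u
  rw [mem_subFin, mem_subFin, H.mul_mem_cancel_left hσ]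

end Fermat.Agent.H48.RQTame
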