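/-
P-CFT / RECIP-Q, row RQ-TAME (helper48), part 3: the Galois theory of `M · K_ℓ / K_ℓ`.

* `powKer ℓ p` is open, hence closed: `Gal(ℚ̄/M) = powKer ℓ p`;
* the cyclotomic character is surjective on `Gal(ℚ̄/K_ℓ)` (the product of the cyclotomic
  units over its image lies in `K_ℓ`, whose value group is generated by `v(ℓ)`);
* `Gal(ℚ̄/M·K_ℓ)` is the preimage of the `p`-th powers, a normal subgroup of index `p`.
-/
import Fermat.Agent.H48.Cft.TameCyc

set_option autoImplicit false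
set_option linter.unusedSectionVars false
set_option linter.style.haveILetI false
set_option maxHeartbeats 1000000

namespace Fermat.Agent.H48.RQTame

open Fermat.Agent.H81.Local ExtCitation Fermat.Agent.H25.Recip
open scoped NNReal

local notation "Qb" => AlgebraicClosure ℚ

variable (ℓ p : ℕ) [Fact ℓ.Prime] [Fact p.Prime]

/-- The cyclotomic character on `Gal(ℚ̄/K_ℓ)`. -/
noncomputable def locChar : (Qb ≃ₐ[localField ℓ] Qb) →* (ZMod ℓ)ˣ :=
  (cycloChar ℓ).comp (AlgEquiv.restrictScalarsHom ℚ)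

theorem locChar_apply (σ : Qb ≃ₐ[localField ℓ] Qb) :
    locChar ℓ σ = cycloChar ℓ (σ.restrictScalars ℚ) := rfl

/-- `powKer ℓ p` is an open subgroup. -/
theorem powKer_isOpen : IsOpen (powKer ℓ p : Set (Qb ≃ₐ[ℚ] Qb)) := by
  obtain ⟨ζ, hζ⟩ := exists_primitiveRoot_Qb (ℓ := ℓ)
  have := Fermat.Agent.H81.isAlgebraic_rat_Qbar
  have hint : IsIntegral ℚ ζ := (Algebra.IsAlgebraic.isAlgebraic (R := ℚ) ζ).isIntegral
  haveI : FiniteDimensional ℚ (IntermediateField.adjoin ℚ {ζ}) :=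
    IntermediateField.adjoin.finiteDimensional hint
  have hopen := IntermediateField.fixingSubgroup_isOpen (IntermediateField.adjoin ℚ {ζ})
  refine Subgroup.isOpen_mono ?_ hopen
  intro σ hσ
  have hfix : σ ζ = ζ := by
    rw [IntermediateField.mem_fixingSubgroup_iff] at hσ
    exact hσ ζ (IntermediateField.mem_adjoin_simple_self ℚ ζ)
  change cycloChar ℓ σ ∈ (powMonoidHom p : (ZMod ℓ)ˣ →* (ZMod ℓ)ˣ).range
  rw [cycloChar_eq_one_of_fix hζ hfix]
  exact one_mem _

/-- `Gal(ℚ̄/M) = powKer ℓ p`. -/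
theorem fixingSubgroup_fieldM : (fieldM ℓ p).fixingSubgroup = powKer ℓ p := by
  have := Fermat.Agent.H81.isGalois_rat_Qbar
  exact InfiniteGalois.fixingSubgroup_fixedField
    (⟨powKer ℓ p, Subgroup.isClosed_of_isOpen _ (powKer_isOpen ℓ p)⟩ :
      ClosedSubgroup (Qb ≃ₐ[ℚ] Qb))

theorem mem_powKer_iff (σ : Qb ≃ₐ[ℚ] Qb) :
    σ ∈ powKer ℓ p ↔ cycloChar ℓ σ ∈ (powMonoidHom p : (ZMod ℓ)ˣ →* (ZMod ℓ)ˣ).range :=
  Iff.rfl

/-- `Gal(ℚ̄/M·K_ℓ)` is the preimage of the `p`-th powers under the cyclotomic character. -/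
theorem fixingSubgroup_fieldMLoc :
    (fieldMLoc ℓ p ℓ).fixingSubgroup =
      (powMonoidHom p : (ZMod ℓ)ˣ →* (ZMod ℓ)ˣ).range.comap (locChar ℓ) := by
  ext σ
  rw [Subgroup.mem_comap, locChar_apply, ← mem_powKer_iff, ← fixingSubgroup_fieldM,
    IntermediateField.mem_fixingSubgroup_iff, IntermediateField.mem_fixingSubgroup_iff]
  constructor
  · intro h x hx
    have hx' : x ∈ fieldMLoc ℓ p ℓ := by
      unfold fieldMLoc
      rw [IntermediateField.mem_extendScalars]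
      exact (le_sup_left : fieldM ℓ p ≤ fieldM ℓ p ⊔ localField ℓ) hx
    exact h x hx'
  · intro h x hx
    unfold fieldMLoc at hx
    rw [IntermediateField.mem_extendScalars] at hx
    have hmem : σ.restrictScalars ℚ ∈ (fieldM ℓ p ⊔ localField ℓ).fixingSubgroup := by
      rw [IntermediateField.fixingSubgroup_sup, Subgroup.mem_inf]
      refine ⟨(IntermediateField.mem_fixingSubgroup_iff _ _).mpr h,
        (IntermediateField.mem_fixingSubgroup_iff _ _).mpr ?_⟩
      intro y hy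
      exact σ.commutes ⟨y, hy⟩
    rw [IntermediateField.mem_fixingSubgroup_iff] at hmem
    exact hmem x hx

/-- Every element of the decomposition group comes from `Gal(ℚ̄/K_ℓ)`. -/
theorem exists_lift_of_mem_Dq {g : Qb ≃ₐ[ℚ] Qb} (hg : g ∈ Dq ℓ) :
    ∃ σ : Qb ≃ₐ[localField ℓ] Qb, σ.restrictScalars ℚ = g := by
  rw [← fixingSubgroup_localField] at hg
  refine ⟨IntermediateField.fixingSubgroupEquiv (localField ℓ) ⟨g, hg⟩, ?_⟩
  ext x
  rfl

theorem isGalois_local_Qb : IsGalois (localField ℓ) Qb := by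
  have := Fermat.Agent.H81.isGalois_rat_Qbar
  exact IsGalois.tower_top_of_isGalois ℚ (localField ℓ) Qb

/-- The cyclotomic character is surjective on `Gal(ℚ̄/K_ℓ)`: `K_ℓ(ζ_ℓ) / K_ℓ` has degree
`ℓ - 1`. -/
theorem locChar_range : (locChar ℓ).range = ⊤ := by
  have hℓ : ℓ.Prime := Fact.out
  obtain ⟨ζ, hζ⟩ := exists_primitiveRoot_Qb (ℓ := ℓ)
  set H := (locChar ℓ).range with hH
  set ϖ := cycProd ℓ ζ (subFin ℓ H) with hϖ
  have hπ := qVal_one_sub_root_pow ℓ hζ
  -- `ϖ ∈ K_ℓ`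
  have hmem : ϖ ∈ localField ℓ := by
    rw [mem_localField_iff']
    intro g hg
    obtain ⟨σ, rfl⟩ := exists_lift_of_mem_Dq ℓ hg
    apply sigma_cycProd_subFin ℓ hζ.pow_eq_one H
    exact ⟨σ, rfl⟩
  have hval : qVal ℓ ϖ = qVal ℓ (1 - ζ) ^ (Nat.card H) := by
    rw [hϖ, qVal_cycProd ℓ hζ.pow_eq_one, card_subFin]
  have hne : ϖ ≠ 0 := by
    intro h0
    rw [h0, map_zero] at hval
    exact (pow_ne_zero _ (qVal_unif_bounds ℓ hπ).2.1.ne') hval.symm
  obtain ⟨k, hk⟩ := qVal_local_eq_zpow ℓ hπ hmem hne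
  rw [hval, ← zpow_natCast] at hk
  have hk2 := zpow_unif_injective ℓ hπ hk
  have hcard : 0 < Nat.card H := Nat.card_pos
  have hk0 : 0 < k := by
    by_contra hcon
    push Not at hcon
    have : ((ℓ - 1 : ℕ) : ℤ) * k ≤ 0 :=
      mul_nonpos_of_nonneg_of_nonpos (by positivity) hcon
    omega
  have hle : ((ℓ - 1 : ℕ) : ℤ) ≤ (Nat.card H : ℤ) := by
    rw [hk2]
    exact le_mul_of_one_le_right (by positivity) (by omega)
  apply Subgroup.eq_top_of_le_card
  rw [Nat.card_eq_fintype_card, ZMod.card_units]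
  exact_mod_cast hle

theorem locChar_surjective : Function.Surjective (locChar ℓ) :=
  MonoidHom.range_eq_top.mp (locChar_range ℓ)

variable {ℓ p}

theorem index_fixingSubgroup_fieldMLoc (hp : p ∣ ℓ - 1) :
    (fieldMLoc ℓ p ℓ).fixingSubgroup.index = p := by
  have hℓ : ℓ.Prime := Fact.out
  haveI : IsCyclic (ZMod ℓ)ˣ := ZMod.isCyclic_units_prime hℓ
  rw [fixingSubgroup_fieldMLoc, Subgroup.index_comap_of_surjective _ (locChar_surjective ℓ),
    IsCyclic.index_powMonoidHom_range, Nat.card_eq_fintype_card, ZMod.card_units]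
  exact Nat.gcd_eq_right hp

theorem finrank_fieldMLoc (hp : p ∣ ℓ - 1) :
    Module.finrank (localField ℓ) (fieldMLoc ℓ p ℓ) = p := by
  haveI := isGalois_local_Qb ℓ
  rw [IntermediateField.finrank_eq_fixingSubgroup_index, index_fixingSubgroup_fieldMLoc hp]

theorem finiteDimensional_fieldMLoc (hp : p ∣ ℓ - 1) :
    FiniteDimensional (localField ℓ) (fieldMLoc ℓ p ℓ) := by
  have hpp : p.Prime := Fact.out
  apply Module.finite_of_finrank_pos
  rw [finrank_fieldMLoc hp]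
  exact hpp.pos

theorem isGalois_fieldMLoc : IsGalois (localField ℓ) (fieldMLoc ℓ p ℓ) := by
  haveI := isGalois_local_Qb ℓ
  rw [← InfiniteGalois.normal_iff_isGalois, fixingSubgroup_fieldMLoc]
  exact Subgroup.Normal.comap inferInstance _

end Fermat.Agent.H48.RQTame
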