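/-
P-CFT / RECIP-Q, row RQ-TAME (helper48), part 4: the uniformizer
`ϖ = ∏_{u ∈ P} (1 - ζ ^ u)` (`P` the `p`-th powers of `(ℤ/ℓ)ˣ`) of `M · K_ℓ`, its norm `ℓ`,
and the norm residue statement `FieldMTameStatement`.
-/
import Fermat.Agent.H48.Cft.TameGal

set_option autoImplicit false
set_option linter.unusedSectionVars false
set_option linter.style.haveILetI false
set_option maxHeartbeats 1000000

namespace Fermat.Agent.H48.RQTame

open Fermat.Agent.H81.Local ExtCitation Fermat.Agent.H25.Recip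
open scoped NNReal

local notation "Qb" => AlgebraicClosure ℚ

variable (ℓ p : ℕ) [Fact ℓ.Prime] [Fact p.Prime]

/-- The `p`-th powers of `(ℤ/ℓ)ˣ`. -/
noncomputable abbrev ppow : Subgroup (ZMod ℓ)ˣ :=
  (powMonoidHom p : (ZMod ℓ)ˣ →* (ZMod ℓ)ˣ).range

/-- The uniformizer `∏_{u ∈ P} (1 - ζ ^ u)` of `M · K_ℓ`. -/
noncomputable def tameUnif (ζ : Qb) : Qb := cycProd ℓ ζ (subFin ℓ (ppow ℓ p))

variable {ℓ p}

theorem card_ppow (hp : p ∣ ℓ - 1) : Nat.card (ppow ℓ p) * p = ℓ - 1 := by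
  have hℓ : ℓ.Prime := Fact.out
  haveI : IsCyclic (ZMod ℓ)ˣ := ZMod.isCyclic_units_prime hℓ
  rw [IsCyclic.card_powMonoidHom_range, Nat.card_eq_fintype_card, ZMod.card_units,
    Nat.gcd_eq_right hp]
  exact Nat.div_mul_cancel hp

theorem qVal_tameUnif_pow (hp : p ∣ ℓ - 1) {ζ : Qb} (hζ : IsPrimitiveRoot ζ ℓ) :
    qVal ℓ (tameUnif ℓ p ζ) ^ p = qVal ℓ (ℓ : Qb) :=
  qVal_cycProd_pow ℓ hζ _ p (by rw [card_subFin]; exact card_ppow hp)

theorem tameUnif_mem_fieldM {ζ : Qb} (hζ : ζ ^ ℓ = 1) : tameUnif ℓ p ζ ∈ fieldM ℓ p := by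
  unfold fieldM
  rw [IntermediateField.mem_fixedField_iff]
  intro σ hσ
  exact sigma_cycProd_subFin ℓ hζ _ hσ

theorem tameUnif_mem {ζ : Qb} (hζ : ζ ^ ℓ = 1) : tameUnif ℓ p ζ ∈ fieldMLoc ℓ p ℓ := by
  unfold fieldMLoc
  rw [IntermediateField.mem_extendScalars]
  exact (le_sup_left : fieldM ℓ p ≤ fieldM ℓ p ⊔ localField ℓ) (tameUnif_mem_fieldM hζ)

/-- Two automorphisms of `ℚ̄ / K_ℓ` have the same restriction to `M · K_ℓ` iff their characters
differ by a `p`-th power. -/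
theorem restrict_eq_iff [Normal (localField ℓ) (fieldMLoc ℓ p ℓ)]
    (σ₁ σ₂ : Qb ≃ₐ[localField ℓ] Qb) :
    AlgEquiv.restrictNormalHom (fieldMLoc ℓ p ℓ) σ₁ =
        AlgEquiv.restrictNormalHom (fieldMLoc ℓ p ℓ) σ₂ ↔
      (locChar ℓ σ₁)⁻¹ * locChar ℓ σ₂ ∈ ppow ℓ p := by
  rw [← map_inv, ← map_mul, ← Subgroup.mem_comap, ← fixingSubgroup_fieldMLoc,
    ← IntermediateField.restrictNormalHom_ker, MonoidHom.mem_ker, map_mul, map_inv,
    inv_mul_eq_one]

/-- The product of the conjugates of the uniformizer is `ℓ`. -/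
theorem prod_aut_tameUnif [FiniteDimensional (localField ℓ) (fieldMLoc ℓ p ℓ)]
    [IsGalois (localField ℓ) (fieldMLoc ℓ p ℓ)] {ζ : Qb} (hζ : IsPrimitiveRoot ζ ℓ) :
    ∏ τ : fieldMLoc ℓ p ℓ ≃ₐ[localField ℓ] fieldMLoc ℓ p ℓ,
      ((τ ⟨tameUnif ℓ p ζ, tameUnif_mem hζ.pow_eq_one⟩ : fieldMLoc ℓ p ℓ) : Qb) = (ℓ : Qb) := by
  classical
  haveI := isGalois_local_Qb ℓ
  have hsurj : Function.Surjective
      (AlgEquiv.restrictNormalHom (F := localField ℓ) (K₁ := Qb) (fieldMLoc ℓ p ℓ)) :=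
    AlgEquiv.restrictNormalHom_surjective Qb
  choose lift hlift using locChar_surjective ℓ
  rw [← prod_cycUnit ℓ hζ]
  unfold cycProd
  rw [← Finset.prod_fiberwise Finset.univ
    (fun w => AlgEquiv.restrictNormalHom (fieldMLoc ℓ p ℓ) (lift w)) (cycUnit ℓ ζ)]
  refine Finset.prod_congr rfl fun τ _ => ?_
  obtain ⟨σ, rfl⟩ := hsurj τ
  rw [AlgEquiv.restrictNormalHom_apply]
  change (σ.restrictScalars ℚ) (cycProd ℓ ζ (subFin ℓ (ppow ℓ p))) = _
  rw [sigma_cycProd hζ.pow_eq_one]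
  refine Finset.prod_equiv (Equiv.mulLeft (locChar ℓ σ)) ?_ (fun u _ => rfl)
  intro u
  rw [mem_subFin, Finset.mem_filter]
  simp only [Finset.mem_univ, true_and, Equiv.coe_mulLeft]
  rw [restrict_eq_iff, hlift, mul_inv_rev, inv_mul_cancel_right, inv_mem_iff]

/-- Congruence of a product to a power. -/
theorem qVal_prod_sub_pow_lt {ι : Type*} (s : Finset ι) (x : ι → Qb) (b : Qb)
    (hb : qVal ℓ b ≤ 1) (h : ∀ i ∈ s, qVal ℓ (x i - b) < 1) :
    qVal ℓ (∏ i ∈ s, x i - b ^ s.card) < 1 := by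
  classical
  induction s using Finset.induction_on with
  | empty => simp
  | insert a s ha ih =>
    rw [Finset.prod_insert ha, Finset.card_insert_of_notMem ha, pow_succ']
    have h1 : x a * ∏ i ∈ s, x i - b * b ^ s.card =
        (x a - b) * b ^ s.card + x a * (∏ i ∈ s, x i - b ^ s.card) := by ring
    rw [h1]
    have hxa : qVal ℓ (x a) ≤ 1 := by
      have : x a = (x a - b) + b := by ring
      rw [this]
      exact (Valuation.map_add_le_max' _ _ _).trans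
        (max_le (h a (Finset.mem_insert_self _ _)).le hb)
    have hB : qVal ℓ (b ^ s.card) ≤ 1 := by
      rw [map_pow]
      exact pow_le_one₀ zero_le hb
    apply Valuation.map_add_lt
    · rw [map_mul]
      calc qVal ℓ (x a - b) * qVal ℓ (b ^ s.card) ≤ qVal ℓ (x a - b) * 1 := by gcongr
        _ = qVal ℓ (x a - b) := mul_one _
        _ < 1 := h a (Finset.mem_insert_self _ _)
    · rw [map_mul]
      calc qVal ℓ (x a) * qVal ℓ (∏ i ∈ s, x i - b ^ s.card)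
          ≤ 1 * qVal ℓ (∏ i ∈ s, x i - b ^ s.card) := by gcongr
        _ = qVal ℓ (∏ i ∈ s, x i - b ^ s.card) := one_mul _
        _ < 1 := ih fun i hi => h i (Finset.mem_insert_of_mem hi)

end Fermat.Agent.H48.RQTame
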