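/-
P-CFT / RECIP-Q, row RQ-TAME (helper48): `FieldMTameStatement`.

`M · K_ℓ / K_ℓ` is Galois of degree `p`, totally (tamely) ramified with uniformizer
`ϖ = ∏_{u ∈ P} (1 - ζ ^ u)` of norm `ℓ`; a norm `a` of valuation `e` is, up to `ℓ ^ e`, a
`p`-th power residue mod `ℓ`.
-/
import Fermat.Agent.H48.Cft.TameNorm

set_option autoImplicit false
set_option linter.unusedSectionVars false
set_option linter.style.haveILetI false
set_option maxHeartbeats 1000000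

namespace Fermat.Agent.H48.RQTame

open Fermat.Agent.H81.Local ExtCitation Fermat.Agent.H25.Recip
open scoped NNReal

local notation "Qb" => AlgebraicClosure ℚ

variable {ℓ p : ℕ} [Fact ℓ.Prime] [Fact p.Prime]

/-- Residue degree one: an integral element of `M · K_ℓ` is congruent to an integer. -/
theorem exists_nat_rep_fieldMLoc (hp : p ∣ ℓ - 1) (y : fieldMLoc ℓ p ℓ)
    (hy : qVal ℓ (y : Qb) ≤ 1) : ∃ b : ℕ, qVal ℓ ((y : Qb) - (b : Qb)) < 1 := by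
  have hpp : p.Prime := Fact.out
  obtain ⟨ζ, hζ⟩ := exists_primitiveRoot_Qb (ℓ := ℓ)
  have hϖ := qVal_tameUnif_pow (p := p) hp hζ
  set ϖ' : fieldMLoc ℓ p ℓ := ⟨tameUnif ℓ p ζ, tameUnif_mem hζ.pow_eq_one⟩ with hϖ'
  haveI : Nonempty (Fin p) := ⟨⟨0, hpp.pos⟩⟩
  have hcoe : ∀ g : Fin p → localField ℓ,
      ((∑ i, g i • ϖ' ^ (i : ℕ) : fieldMLoc ℓ p ℓ) : Qb) =
        ∑ i, ((g i : localField ℓ) : Qb) * (tameUnif ℓ p ζ) ^ (i : ℕ) := by
    intro g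
    rw [IntermediateField.coe_sum]
    refine Finset.sum_congr rfl fun i _ => ?_
    rw [IntermediateField.coe_smul, IntermediateField.coe_pow]
    rfl
  have hli : LinearIndependent (localField ℓ) (fun i : Fin p => ϖ' ^ (i : ℕ)) := by
    rw [Fintype.linearIndependent_iff]
    intro g hg i
    have h1 : ∑ i, ((g i : localField ℓ) : Qb) * (tameUnif ℓ p ζ) ^ (i : ℕ) = 0 := by
      rw [← hcoe, hg]
      rfl
    have := coeff_eq_zero_of_sum_eq_zero ℓ hϖ (fun i => ((g i : localField ℓ) : Qb))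
      (fun i => (g i).2) h1 i
    exact Subtype.ext this
  have hcard : Fintype.card (Fin p) = Module.finrank (localField ℓ) (fieldMLoc ℓ p ℓ) := by
    rw [Fintype.card_fin, finrank_fieldMLoc hp]
  set B := basisOfLinearIndependentOfCardEqFinrank hli hcard with hB
  have hy' : (y : Qb) =
      ∑ i, ((B.repr y i : localField ℓ) : Qb) * (tameUnif ℓ p ζ) ^ (i : ℕ) := by
    rw [← hcoe]
    congr 1
    have h2 := B.sum_repr y
    rw [hB, coe_basisOfLinearIndependentOfCardEqFinrank] at h2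
    exact h2.symm
  rw [hy'] at hy ⊢
  obtain ⟨h1, h2⟩ := qVal_sum_sub_lt_one ℓ hϖ (fun i => ((B.repr y i : localField ℓ) : Qb))
    (fun i => (B.repr y i).2) hy ⟨0, hpp.pos⟩ rfl
  obtain ⟨b, -, hb⟩ := exists_nat_rep ℓ (B.repr y ⟨0, hpp.pos⟩).2 h1
  refine ⟨b, ?_⟩
  have h3 : ∑ i, ((B.repr y i : localField ℓ) : Qb) * (tameUnif ℓ p ζ) ^ (i : ℕ) - (b : Qb) =
      (∑ i, ((B.repr y i : localField ℓ) : Qb) * (tameUnif ℓ p ζ) ^ (i : ℕ) -
        ((B.repr y ⟨0, hpp.pos⟩ : localField ℓ) : Qb)) +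
      (((B.repr y ⟨0, hpp.pos⟩ : localField ℓ) : Qb) - (b : Qb)) := by ring
  rw [h3]
  exact Valuation.map_add_lt _ h2 hb

/-- **[RQ-TAME]** `M · K_ℓ / K_ℓ` is Galois of degree `p`, and a norm of valuation `e` is, up to
`ℓ ^ e`, a `p`-th power residue mod `ℓ`. -/
theorem fieldMTame : FieldMTameStatement := by
  intro p ℓ _ _ _hp2 hp
  refine ⟨finiteDimensional_fieldMLoc hp, isGalois_fieldMLoc, finrank_fieldMLoc hp, ?_⟩
  rintro a e ha ⟨y, hy⟩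
  haveI := finiteDimensional_fieldMLoc (ℓ := ℓ) (p := p) hp
  haveI := isGalois_fieldMLoc (ℓ := ℓ) (p := p)
  have hpp : p.Prime := Fact.out
  have hℓ : ℓ.Prime := Fact.out
  obtain ⟨ζ, hζ⟩ := exists_primitiveRoot_Qb (ℓ := ℓ)
  have hϖ := qVal_tameUnif_pow (p := p) hp hζ
  obtain ⟨-, hϖ0, hϖ1⟩ := qVal_unif_bounds ℓ hϖ
  set ϖ' : fieldMLoc ℓ p ℓ := ⟨tameUnif ℓ p ζ, tameUnif_mem hζ.pow_eq_one⟩ with hϖ'
  -- the norm as the product of the conjugates, inside `ℚ̄`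
  have hnorm : ∀ z : fieldMLoc ℓ p ℓ,
      ((Algebra.norm (localField ℓ) z : localField ℓ) : Qb) =
        ∏ τ : fieldMLoc ℓ p ℓ ≃ₐ[localField ℓ] fieldMLoc ℓ p ℓ,
          ((τ z : fieldMLoc ℓ p ℓ) : Qb) := by
    intro z
    rw [← IntermediateField.coe_prod, ← Algebra.norm_eq_prod_automorphisms (localField ℓ) z]
    rfl
  have hcard : Fintype.card (fieldMLoc ℓ p ℓ ≃ₐ[localField ℓ] fieldMLoc ℓ p ℓ) = p := by
    rw [← Nat.card_eq_fintype_card, IsGalois.card_aut_eq_finrank, finrank_fieldMLoc hp]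
  have hgal : ∀ (τ : fieldMLoc ℓ p ℓ ≃ₐ[localField ℓ] fieldMLoc ℓ p ℓ) (z : fieldMLoc ℓ p ℓ),
      qVal ℓ ((τ z : fieldMLoc ℓ p ℓ) : Qb) = qVal ℓ (z : Qb) :=
    fun τ z => qValOn_galois (q := ℓ) (E := localField ℓ) le_rfl (fieldMLoc ℓ p ℓ) τ z
  -- the valuation of `y`
  have hvy : qVal ℓ (y : Qb) = qVal ℓ (tameUnif ℓ p ζ) ^ e := by
    have h1 : qVal ℓ ((Algebra.norm (localField ℓ) y : localField ℓ) : Qb) =
        qVal ℓ (y : Qb) ^ p := by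
      rw [hnorm, map_prod, Finset.prod_congr rfl (fun τ _ => hgal τ y), Finset.prod_const,
        Finset.card_univ, hcard]
    rw [hy, ha, ← hϖ, ← zpow_natCast (qVal ℓ (tameUnif ℓ p ζ)) p, ← zpow_mul, mul_comm,
      zpow_mul, zpow_natCast] at h1
    exact ((pow_left_inj₀ zero_le zero_le hpp.ne_zero).mp h1).symm
  -- the unit `y₁ = y / ϖ ^ e`
  set y₁ : fieldMLoc ℓ p ℓ := y * (ϖ' ^ e)⁻¹ with hy₁
  have hτ : ∀ τ : fieldMLoc ℓ p ℓ ≃ₐ[localField ℓ] fieldMLoc ℓ p ℓ,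
      ((τ y₁ : fieldMLoc ℓ p ℓ) : Qb) =
        ((τ y : fieldMLoc ℓ p ℓ) : Qb) * ((((τ ϖ' : fieldMLoc ℓ p ℓ) : Qb)) ^ e)⁻¹ := by
    intro τ
    rw [hy₁, map_mul, map_inv₀, map_zpow₀]
    change (fieldMLoc ℓ p ℓ).val (τ y * (τ ϖ' ^ e)⁻¹) = _
    rw [map_mul, map_inv₀, map_zpow₀]
    rfl
  have hvy₁ : qVal ℓ (y₁ : Qb) = 1 := by
    have h1 := hτ AlgEquiv.refl
    simp only [AlgEquiv.coe_refl, id_eq] at h1
    rw [h1, map_mul, map_inv₀, map_zpow₀, hvy]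
    exact mul_inv_cancel₀ (zpow_ne_zero _ hϖ0.ne')
  obtain ⟨b, hb⟩ := exists_nat_rep_fieldMLoc hp y₁ hvy₁.le
  refine ⟨(b : ℤ), ?_⟩
  -- the product of the conjugates of `y₁`
  have hprod : ∏ τ : fieldMLoc ℓ p ℓ ≃ₐ[localField ℓ] fieldMLoc ℓ p ℓ,
      ((τ y₁ : fieldMLoc ℓ p ℓ) : Qb) = (a : Qb) * ((ℓ : Qb) ^ e)⁻¹ := by
    rw [Finset.prod_congr rfl (fun τ _ => hτ τ), Finset.prod_mul_distrib,
      Finset.prod_inv_distrib, Finset.prod_zpow, ← hnorm, hy, prod_aut_tameUnif hζ]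
  have hconj : ∀ τ ∈ (Finset.univ :
      Finset (fieldMLoc ℓ p ℓ ≃ₐ[localField ℓ] fieldMLoc ℓ p ℓ)),
      qVal ℓ (((τ y₁ : fieldMLoc ℓ p ℓ) : Qb) - (b : Qb)) < 1 := by
    intro τ _
    have h1 : ((τ y₁ : fieldMLoc ℓ p ℓ) : Qb) - (b : Qb) =
        ((τ (y₁ - (b : fieldMLoc ℓ p ℓ)) : fieldMLoc ℓ p ℓ) : Qb) := by
      rw [map_sub, map_natCast]
      rfl
    rw [h1, hgal]
    exact hb
  have key := qVal_prod_sub_pow_lt (ℓ := ℓ) Finset.univ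
    (fun τ : fieldMLoc ℓ p ℓ ≃ₐ[localField ℓ] fieldMLoc ℓ p ℓ =>
      ((τ y₁ : fieldMLoc ℓ p ℓ) : Qb)) (b : Qb) (qVal_natCast_le_one ℓ b) hconj
  rw [hprod, Finset.card_univ, hcard] at key
  rw [Int.cast_natCast]
  exact key

end Fermat.Agent.H48.RQTame
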